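import Fermat.Agent.RankinGaps.Covering
import Mathlib.NumberTheory.Bertrand

/-!
# Large gaps between primes

By the Chinese remainder theorem the covering puts `H` consecutive numbers, each with a prime factor
`≤ x`, just above some `n₀ ∈ [4 ^ x, 32 ^ x]`; the prime below them starts a gap longer than `H`.
-/

set_option autoImplicit false

noncomputable section

namespace FA.RankinGaps

open Finset Filter Nat.Prime
open scoped Topology Nat.Prime

/-- Consecutive numbers, each with a prime factor `≤ x`. -/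
theorem exists_run : ∃ c : ℝ, 0 < c ∧ ∀ᶠ x : ℕ in atTop, ∃ n₀ H : ℕ, c * rate x ≤ H ∧
    4 ^ x ≤ n₀ ∧ n₀ ≤ 32 ^ x ∧ ∀ j ∈ Icc 1 H, ∃ p ≤ x, p.Prime ∧ p ∣ n₀ + j := by
  obtain ⟨c, hc, hcov⟩ := exists_covering
  refine ⟨c, hc, ?_⟩
  filter_upwards [hcov, eventually_ge_atTop 1] with x hx hx1
  obtain ⟨H, hH, r, hr⟩ := hx
  have hne : ∀ p ∈ (range (x + 1)).filter Nat.Prime, id p ≠ 0 := fun p hp =>
    (mem_filter.1 hp).2.ne_zero
  have hco : Set.Pairwise (↑((range (x + 1)).filter Nat.Prime)) (Nat.Coprime.onFun id) :=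
    fun p hp q hq hpq => (Nat.coprime_primes (mem_filter.1 hp).2 (mem_filter.1 hq).2).2 hpq
  obtain ⟨k, hk, hkP⟩ : ∃ k, (∀ p ∈ (range (x + 1)).filter Nat.Prime,
      k ≡ p - r p % p [MOD p]) ∧ k < primorial x :=
    ⟨_, (Nat.chineseRemainderOfFinset (fun p => p - r p % p) id _ hne hco).2,
      Nat.chineseRemainderOfFinset_lt_prod _ _ hne hco⟩
  have hP1 : 1 ≤ primorial x := primorial_pos x
  refine ⟨k + 4 ^ x * primorial x, H, hH, (Nat.le_mul_of_pos_right _ hP1).trans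
    (Nat.le_add_left _ _), ?_, fun j hj => ?_⟩
  · calc k + 4 ^ x * primorial x ≤ (1 + 4 ^ x) * primorial x := by linarith
      _ ≤ 2 * 4 ^ x * 4 ^ x := Nat.mul_le_mul (by have := Nat.one_le_pow x 4 (by norm_num); omega)
          (primorial_le_four_pow x)
      _ ≤ 2 ^ x * 4 ^ x * 4 ^ x := Nat.mul_le_mul_right _ (Nat.mul_le_mul_right _
          (le_self_pow₀ (by norm_num) (by omega)))
      _ = 32 ^ x := by rw [← mul_pow, ← mul_pow]; norm_num
  · obtain ⟨p, hpx, hp, hjp⟩ := hr j hj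
    refine ⟨p, hpx, hp, ?_⟩
    have hmem : p ∈ (range (x + 1)).filter Nat.Prime :=
      mem_filter.2 ⟨mem_range.2 (by omega), hp⟩
    have hdvd : p ∣ 4 ^ x * primorial x :=
      (dvd_prod_of_mem _ hmem : p ∣ primorial x).mul_left _
    rw [add_right_comm]
    refine (Nat.dvd_add_right ?_).2 hdvd |>.trans (dvd_of_eq rfl)
    have h1 : k + j ≡ p - r p % p + r p % p [MOD p] :=
      (hk p hmem).add (hjp.trans (Nat.mod_modEq _ _).symm)
    rw [Nat.sub_add_cancel (Nat.mod_lt _ hp.pos).le] at h1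
    exact Nat.modEq_zero_iff_dvd.1 (h1.trans (Nat.modEq_zero_iff_dvd.2 dvd_rfl))

/-- A gap longer than `c · rate x` after a prime in `[4 ^ x / 2, 32 ^ x]`. -/
theorem exists_gap : ∃ c : ℝ, 0 < c ∧ ∀ᶠ x : ℕ in atTop, ∃ i : ℕ,
    4 ^ x ≤ 2 * Nat.nth Nat.Prime i ∧ Nat.nth Nat.Prime i ≤ 32 ^ x ∧
      c * rate x ≤ (Nat.nth Nat.Prime (i + 1) : ℝ) - Nat.nth Nat.Prime i := by
  obtain ⟨c, hc, hrun⟩ := exists_run
  refine ⟨c, hc, ?_⟩
  filter_upwards [hrun, eventually_gt_atTop 2] with x hx hx2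
  obtain ⟨n₀, H, hH, h4, h32, hrun⟩ := hx
  have hxn : x < n₀ := (Nat.lt_pow_self (by norm_num)).trans_le h4
  obtain ⟨i, hi, hi'⟩ : ∃ i, Nat.nth Nat.Prime i ≤ n₀ ∧ n₀ < Nat.nth Nat.Prime (i + 1) := by
    refine ⟨Nat.count Nat.Prime (n₀ + 1) - 1, ?_, ?_⟩
    · have hc : Nat.count Nat.Prime (n₀ + 1) - 1 < Nat.count Nat.Prime (n₀ + 1) := by
        have : 0 < Nat.count Nat.Prime (n₀ + 1) :=
          lt_of_le_of_lt (Nat.zero_le _) (Nat.count_strict_mono Nat.prime_two (by omega) :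
            Nat.count Nat.Prime 2 < Nat.count Nat.Prime (n₀ + 1))
        omega
      exact Nat.lt_succ_iff.1 (Nat.nth_lt_of_lt_count hc)
    · refine lt_of_lt_of_le (Nat.lt_succ_self n₀) ?_
      refine le_trans (Nat.le_nth_count Nat.infinite_setOfPred_prime (n₀ + 1)) ?_
      exact Nat.nth_monotone Nat.infinite_setOfPred_prime (show Nat.count Nat.Prime (n₀ + 1) ≤
        Nat.count Nat.Prime (n₀ + 1) - 1 + 1 by omega)
  have hqp : (Nat.nth Nat.Prime (i + 1)).Prime := Nat.prime_nth_prime _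
  have hgap : n₀ + H < Nat.nth Nat.Prime (i + 1) := by
    by_contra hle
    obtain ⟨p, hpx, hp, hpd⟩ :=
      hrun (Nat.nth Nat.Prime (i + 1) - n₀) (mem_Icc.2 ⟨by omega, by omega⟩)
    rw [Nat.add_sub_cancel' hi'.le] at hpd
    have := (Nat.prime_dvd_prime_iff_eq hp hqp).1 hpd
    omega
  have htwo : Nat.nth Nat.Prime (i + 1) ≤ 2 * Nat.nth Nat.Prime i := by
    obtain ⟨q, hq, hlt, hle⟩ :=
      Nat.exists_prime_lt_and_le_two_mul _ (Nat.prime_nth_prime i).ne_zero
    obtain ⟨k, rfl⟩ : ∃ k, Nat.nth Nat.Prime k = q := ⟨_, Nat.nth_count hq⟩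
    exact le_trans (Nat.nth_monotone Nat.infinite_setOfPred_prime
      ((Nat.nth_lt_nth Nat.infinite_setOfPred_prime).1 hlt)) hle
  refine ⟨i, by omega, hi.trans h32, hH.trans ?_⟩
  rw [le_sub_iff_add_le]
  exact_mod_cast (show H + Nat.nth Nat.Prime i ≤ Nat.nth Nat.Prime (i + 1) by omega)

/-- On `[x / 2, 8 x]` the rate is `O (rate x)`. -/
theorem eventually_rate_le : ∀ᶠ x : ℕ in atTop, ∀ t : ℝ, (x : ℝ) / 2 ≤ t → t ≤ 8 * x →
    rate t ≤ 128 * rate x := by
  have hl : Tendsto (fun x : ℕ => Real.log (Real.log x)) atTop atTop :=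
    Real.tendsto_log_atTop.comp (Real.tendsto_log_atTop.comp tendsto_natCast_atTop_atTop)
  filter_upwards [hl.eventually_ge_atTop 8, (Real.tendsto_log_atTop.comp
    tendsto_natCast_atTop_atTop).eventually_ge_atTop 8, eventually_ge_atTop 1]
    with x h2 h1 hx1 t ht ht'
  simp only [Function.comp_apply] at h1
  have hx : (1 : ℝ) ≤ x := Nat.one_le_cast.2 hx1
  have hlog2 := Real.log_two_lt_d9
  have h8 : Real.log 8 = 3 * Real.log 2 := by
    rw [show (8 : ℝ) = 2 ^ 3 by norm_num, Real.log_pow]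
    norm_num
  have hl1 : Real.log x / 2 ≤ Real.log t := by
    refine le_trans ?_ (Real.log_le_log (by positivity) ht)
    rw [Real.log_div (by positivity) two_ne_zero]
    linarith
  have hl1' : Real.log t ≤ 2 * Real.log x := by
    refine (Real.log_le_log (by linarith) ht').trans ?_
    rw [Real.log_mul (by norm_num) (by positivity), h8]
    linarith
  have hl2 : Real.log (Real.log x) / 2 ≤ Real.log (Real.log t) := by
    refine le_trans ?_ (Real.log_le_log (by linarith) hl1)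
    rw [Real.log_div (by linarith) two_ne_zero]
    linarith
  have hl2' : Real.log (Real.log t) ≤ 2 * Real.log (Real.log x) := by
    refine (Real.log_le_log (by linarith) hl1').trans ?_
    rw [Real.log_mul two_ne_zero (by linarith)]
    linarith
  have hl3' : Real.log (Real.log (Real.log t)) ≤ 2 * Real.log (Real.log (Real.log x)) := by
    refine (Real.log_le_log (by linarith) hl2').trans ?_
    rw [Real.log_mul two_ne_zero (by linarith)]
    linarith [Real.log_le_log two_pos (show (2 : ℝ) ≤ Real.log (Real.log x) by linarith)]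
  have hl3 : 0 ≤ Real.log (Real.log (Real.log t)) := Real.log_nonneg (by linarith)
  have hl3x : 0 ≤ Real.log (Real.log (Real.log x)) := Real.log_nonneg (by linarith)
  calc rate t ≤ 8 * x * (2 * Real.log x) * (2 * Real.log (Real.log (Real.log x))) /
        (Real.log (Real.log x) / 2) ^ 2 := by
        refine div_le_div₀ (by positivity) (mul_le_mul (mul_le_mul ht' hl1' (by linarith)
          (by positivity)) hl3' hl3 (by positivity)) (by positivity) ?_
        exact pow_le_pow_left₀ (by linarith) hl2 2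
    _ = 128 * rate x := by
        rw [rate]
        field_simp
        ring

/-- **The Erdős–Rankin theorem**, the largest gap below `X`. -/
theorem eventually_rankin : ∃ c : ℝ, 0 < c ∧ ∀ᶠ X : ℕ in atTop, ∃ i : ℕ,
    Nat.nth Nat.Prime i ≤ X ∧
      c * rate (Real.log X) ≤ (Nat.nth Nat.Prime (i + 1) : ℝ) - Nat.nth Nat.Prime i := by
  obtain ⟨c, hc, hgap⟩ := exists_gap
  refine ⟨c / 128, by positivity, ?_⟩
  obtain ⟨x₀, hx₀⟩ :=
    eventually_atTop.1 ((hgap.and eventually_rate_le).and (eventually_ge_atTop 1))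
  filter_upwards [eventually_ge_atTop (32 ^ x₀)] with X hX
  have hX0 : X ≠ 0 := (Nat.lt_of_lt_of_le (pow_pos (by norm_num) _) hX).ne'
  obtain ⟨⟨⟨i, -, hi, hg⟩, hR⟩, hx1⟩ :=
    hx₀ (Nat.log 32 X) (Nat.le_log_of_pow_le (by norm_num) hX)
  refine ⟨i, hi.trans (Nat.pow_log_le_self 32 hX0), le_trans ?_ hg⟩
  have hup := Real.log_le_log (Nat.cast_pos.2 (Nat.pos_of_ne_zero hX0))
    (Nat.cast_le.2 (Nat.lt_pow_succ_log_self (show 1 < 32 by norm_num) X).le :
      (X : ℝ) ≤ ((32 ^ (Nat.log 32 X + 1) : ℕ) : ℝ))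
  have hlo := Real.log_le_log (by positivity)
    (Nat.cast_le.2 (Nat.pow_log_le_self 32 hX0) : ((32 ^ Nat.log 32 X : ℕ) : ℝ) ≤ X)
  have h32 : Real.log 32 = 5 * Real.log 2 := by
    rw [show (32 : ℝ) = 2 ^ 5 by norm_num, Real.log_pow]
    norm_num
  rw [Nat.cast_pow, Real.log_pow, Nat.cast_ofNat, h32] at hup hlo
  push_cast at hup
  have hx : (1 : ℝ) ≤ (Nat.log 32 X : ℕ) := Nat.one_le_cast.2 hx1
  have := hR (Real.log X) (by nlinarith [Real.log_two_gt_d9]) (by nlinarith [Real.log_two_lt_d9])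
  rw [div_mul_eq_mul_div, div_le_iff₀ (by norm_num)]
  linarith [mul_le_mul_of_nonneg_left this hc.le]

/-- **The Erdős–Rankin theorem.** -/
theorem frequently_rankin : ∃ c : ℝ, 0 < c ∧ ∃ᶠ i : ℕ in atTop,
    c * rate (Real.log (Nat.nth Nat.Prime i)) ≤
      (Nat.nth Nat.Prime (i + 1) : ℝ) - Nat.nth Nat.Prime i := by
  obtain ⟨c, hc, hgap⟩ := exists_gap
  refine ⟨c / 128, by positivity, frequently_atTop.2 fun i₀ => ?_⟩
  obtain ⟨x, ⟨⟨i, h4, hi, hg⟩, hR⟩, hx⟩ := ((hgap.and eventually_rate_le).and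
    (eventually_gt_atTop (2 * Nat.nth Nat.Prime i₀))).exists
  refine ⟨i, ?_, le_trans ?_ hg⟩
  · by_contra hlt
    have : Nat.nth Nat.Prime i ≤ Nat.nth Nat.Prime i₀ :=
      Nat.nth_monotone Nat.infinite_setOfPred_prime (not_le.1 hlt).le
    have := (Nat.lt_pow_self (show 1 < 4 by norm_num) (n := x))
    omega
  have hp : (0 : ℝ) < Nat.nth Nat.Prime i := Nat.cast_pos.2 (Nat.prime_nth_prime i).pos
  have hup := Real.log_le_log hp
    (Nat.cast_le.2 hi : (Nat.nth Nat.Prime i : ℝ) ≤ ((32 ^ x : ℕ) : ℝ))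
  have hlo := Real.log_le_log (by positivity)
    (Nat.cast_le.2 h4 : ((4 ^ x : ℕ) : ℝ) ≤ ((2 * Nat.nth Nat.Prime i : ℕ) : ℝ))
  have h32 : Real.log 32 = 5 * Real.log 2 := by
    rw [show (32 : ℝ) = 2 ^ 5 by norm_num, Real.log_pow]
    norm_num
  have h22 : Real.log 4 = 2 * Real.log 2 := by
    rw [show (4 : ℝ) = 2 ^ 2 by norm_num, Real.log_pow]
    norm_num
  rw [Nat.cast_pow, Real.log_pow, Nat.cast_ofNat, h32] at hup
  rw [Nat.cast_pow, Real.log_pow, Nat.cast_ofNat, h22, Nat.cast_mul, Nat.cast_ofNat,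
    Real.log_mul two_ne_zero hp.ne'] at hlo
  have hx1 : (1 : ℝ) ≤ x := Nat.one_le_cast.2 (by omega)
  have := hR _ (show (x : ℝ) / 2 ≤ Real.log (Nat.nth Nat.Prime i) by
    nlinarith [Real.log_two_gt_d9]) (by nlinarith [Real.log_two_lt_d9])
  rw [div_mul_eq_mul_div, div_le_iff₀ (by norm_num)]
  linarith [mul_le_mul_of_nonneg_left this hc.le]

/-- Erdős's rate, without the quadruple logarithm, is beaten by every multiple. -/
theorem frequently_erdos (K : ℝ) : ∃ᶠ i : ℕ in atTop,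
    K * (Real.log (Nat.nth Nat.Prime i) * Real.log (Real.log (Nat.nth Nat.Prime i)) /
        Real.log (Real.log (Real.log (Nat.nth Nat.Prime i))) ^ 2) ≤
      (Nat.nth Nat.Prime (i + 1) : ℝ) - Nat.nth Nat.Prime i := by
  obtain ⟨c, hc, hfr⟩ := frequently_rankin
  have hl : Tendsto (fun i : ℕ => Real.log (Nat.nth Nat.Prime i)) atTop atTop :=
    Real.tendsto_log_atTop.comp (tendsto_natCast_atTop_atTop.comp
      (Nat.nth_strictMono Nat.infinite_setOfPred_prime).tendsto_atTop)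
  have hl4 : Tendsto
      (fun i : ℕ => Real.log (Real.log (Real.log (Real.log (Nat.nth Nat.Prime i))))) atTop atTop :=
    Real.tendsto_log_atTop.comp (Real.tendsto_log_atTop.comp (Real.tendsto_log_atTop.comp hl))
  refine (hfr.and_eventually ((hl.eventually_ge_atTop 1).and
    (hl4.eventually_ge_atTop (K / c)))).mono fun i hi => ?_
  obtain ⟨hg, h1, h4⟩ := hi
  refine le_trans ?_ hg
  rw [rate]
  refine (mul_le_mul_of_nonneg_right ((div_le_iff₀' hc).1 h4)
    (div_nonneg (mul_nonneg (zero_le_one.trans h1) (Real.log_nonneg h1)) (sq_nonneg _))).trans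
    (le_of_eq ?_)
  ring

end FA.RankinGaps
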