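import Fermat.Agent.ErdosKac.Mertens
import Mathlib.NumberTheory.EulerProduct.Basic

/-!
# Rankin's bound for smooth numbers

`#{n ≤ y : every prime factor of n is ≤ L} ≤ y ^ (1 - η) log L exp (B + η L ^ η (log L + C))` for
`0 ≤ η ≤ 1 / 4`, by the Euler product at `1 - η`; and `∏ (1 - 1 / p) ≤ exp C / log L` over `p ≤ L`.
-/

set_option autoImplicit false

noncomputable section

namespace FA.RankinGaps

open Finset
open FA.ErdosKac

/-- The `L`-smooth numbers up to `y`. -/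
def smoothUpTo (y L : ℕ) : Finset ℕ :=
  (Icc 1 y).filter fun n => ∀ p ∈ n.primeFactorsList, p ≤ L

theorem mem_smoothUpTo {y L n : ℕ} :
    n ∈ smoothUpTo y L ↔ (1 ≤ n ∧ n ≤ y) ∧ ∀ p, p.Prime → p ∣ n → p ≤ L := by
  rw [smoothUpTo, mem_filter, mem_Icc]
  refine and_congr_right fun h => ?_
  simp only [Nat.mem_primeFactorsList (show n ≠ 0 by omega), and_imp]

/-- `n ↦ n ^ (-s)`. -/
def rpowNegHom (s : ℝ) (hs : s ≠ 0) : ℕ →*₀ ℝ where
  toFun n := (n : ℝ) ^ (-s)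
  map_zero' := by rw [Nat.cast_zero, Real.zero_rpow (neg_ne_zero.2 hs)]
  map_one' := by rw [Nat.cast_one, Real.one_rpow]
  map_mul' a b := by rw [Nat.cast_mul, Real.mul_rpow (Nat.cast_nonneg a) (Nat.cast_nonneg b)]

/-- The Euler product bounds every partial sum over smooth numbers. -/
theorem sum_rpow_smooth_le (y L : ℕ) {s : ℝ} (hs : 0 < s) :
    ∑ n ∈ smoothUpTo y L, (n : ℝ) ^ (-s) ≤
      ∏ p ∈ primesUpTo L, (1 - (p : ℝ) ^ (-s))⁻¹ := by
  have hmem : ∀ n ∈ smoothUpTo y L, n ∈ Nat.factoredNumbers (primesUpTo L) := fun n hn => by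
    rw [mem_smoothUpTo] at hn
    rw [Nat.mem_factoredNumbers]
    refine ⟨by omega, fun p hp => ?_⟩
    rw [Nat.mem_primeFactorsList (by omega)] at hp
    exact mem_primesUpTo.2 ⟨hp.1, hn.2 p hp.1 hp.2⟩
  have h := (EulerProduct.summable_and_hasSum_factoredNumbers_prod_filter_prime_geometric
    (f := (rpowNegHom s hs.ne').toMonoidHom) (fun {p} hp => ?_) (primesUpTo L)).2
  · rw [filter_eq_self.2 fun p hp => (mem_primesUpTo.1 hp).1] at h
    classical
    calc ∑ n ∈ smoothUpTo y L, (n : ℝ) ^ (-s)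
        = ∑ m ∈ (smoothUpTo y L).subtype (fun n => n ∈ Nat.factoredNumbers (primesUpTo L)),
            ((m : ℕ) : ℝ) ^ (-s) :=
          (sum_subtype_of_mem (fun n : ℕ => (n : ℝ) ^ (-s)) hmem).symm
      _ ≤ _ := sum_le_hasSum _ (fun m _ => Real.rpow_nonneg (Nat.cast_nonneg (m : ℕ)) _) h
  · change ‖(p : ℝ) ^ (-s)‖ < 1
    rw [Real.norm_of_nonneg (Real.rpow_nonneg (Nat.cast_nonneg p) _)]
    exact Real.rpow_lt_one_of_one_lt_of_neg (Nat.one_lt_cast.2 hp.one_lt) (by linarith)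

theorem card_smoothUpTo_le (y L : ℕ) {s : ℝ} (hs : 0 < s) :
    ((smoothUpTo y L).card : ℝ) ≤ (y : ℝ) ^ s * ∏ p ∈ primesUpTo L, (1 - (p : ℝ) ^ (-s))⁻¹ := by
  refine le_trans ?_ (mul_le_mul_of_nonneg_left (sum_rpow_smooth_le y L hs)
    (Real.rpow_nonneg (Nat.cast_nonneg y) _))
  rw [mul_sum, card_eq_sum_ones, Nat.cast_sum]
  refine sum_le_sum fun n hn => ?_
  rw [mem_smoothUpTo] at hn
  have hn0 : (0 : ℝ) < n := Nat.cast_pos.2 hn.1.1
  rw [Nat.cast_one, Real.rpow_neg hn0.le, ← div_eq_mul_inv,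
    le_div_iff₀ (Real.rpow_pos_of_pos hn0 _), one_mul]
  exact Real.rpow_le_rpow hn0.le (Nat.cast_le.2 hn.1.2) hs.le

theorem inv_one_sub_le_exp {t : ℝ} (h1 : t ≤ 3 / 5) :
    (1 - t)⁻¹ ≤ Real.exp (t + 5 / 2 * t ^ 2) := by
  have hpos : 0 < 1 - t := by linarith
  rw [← Real.exp_log (inv_pos.2 hpos), Real.exp_le_exp, Real.log_inv]
  have h := Real.one_sub_inv_le_log_of_pos hpos
  refine le_trans (show -Real.log (1 - t) ≤ (1 - t)⁻¹ - 1 by linarith) ?_
  rw [inv_eq_one_div, div_sub_one hpos.ne', div_le_iff₀ hpos]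
  nlinarith

theorem rpow_le_one_add {p η : ℝ} (hp : 1 ≤ p) :
    p ^ η ≤ 1 + η * Real.log p * p ^ η := by
  have h := Real.add_one_le_exp (-(η * Real.log p))
  rw [Real.rpow_def_of_pos (by linarith), mul_comm (Real.log p)]
  have h1 := mul_le_mul_of_nonneg_right h (Real.exp_pos (η * Real.log p)).le
  rw [← Real.exp_add, neg_add_cancel, Real.exp_zero] at h1
  linarith

/-- **Rankin's bound.** -/
theorem exists_card_smooth_le : ∃ B C : ℝ, 0 ≤ C ∧ ∀ (y L : ℕ) (η : ℝ), 0 ≤ η → η ≤ 1 / 4 →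
    2 ≤ L → ((smoothUpTo y L).card : ℝ) ≤
      (y : ℝ) ^ (1 - η) * (Real.log L * Real.exp (B + η * (L : ℝ) ^ η * (Real.log L + C))) := by
  obtain ⟨A, hA⟩ := exists_abs_recipSum_sub_le
  obtain ⟨C, hC⟩ := exists_abs_sum_log_div_sub_le
  have hsum : Summable fun n : ℕ => (n : ℝ) ^ (-(3 / 2) : ℝ) :=
    Real.summable_nat_rpow.2 (by norm_num)
  obtain ⟨D, hD⟩ : ∃ D, D = ∑' n : ℕ, (n : ℝ) ^ (-(3 / 2) : ℝ) := ⟨_, rfl⟩
  refine ⟨A + 5 / 2 * D, C, (abs_nonneg _).trans (hC 1 le_rfl), fun y L η hη0 hη hL => ?_⟩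
  refine (card_smoothUpTo_le y L (s := 1 - η) (by linarith)).trans
    (mul_le_mul_of_nonneg_left ?_ (Real.rpow_nonneg (Nat.cast_nonneg y) _))
  have hl : 0 < Real.log L := Real.log_pos (Nat.one_lt_cast.2 (by omega))
  have ht : ∀ p ∈ primesUpTo L, (p : ℝ) ^ (-(1 - η)) ≤ 3 / 5 := fun p hp => by
    have h2 : (2 : ℝ) ≤ p := Nat.ofNat_le_cast.2 (mem_primesUpTo.1 hp).1.two_le
    calc (p : ℝ) ^ (-(1 - η)) ≤ (p : ℝ) ^ (-(3 / 4) : ℝ) :=
          Real.rpow_le_rpow_of_exponent_le (by linarith) (by linarith)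
      _ ≤ (2 : ℝ) ^ (-(3 / 4) : ℝ) :=
          Real.rpow_le_rpow_of_nonpos (by norm_num) h2 (by norm_num)
      _ ≤ 3 / 5 := by
          rw [Real.rpow_def_of_pos (by norm_num), ← Real.le_log_iff_exp_le (by norm_num),
            show (3 / 5 : ℝ) = (5 / 3)⁻¹ by norm_num, Real.log_inv]
          have := Real.log_le_log (by norm_num) (show ((5 : ℝ) / 3) ^ 4 ≤ 2 ^ 3 by norm_num)
          rw [Real.log_pow, Real.log_pow] at this
          push_cast at this
          linarith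
  refine (prod_le_prod (fun p hp => inv_nonneg.2 (by linarith [ht p hp])) fun p hp =>
    inv_one_sub_le_exp (ht p hp)).trans ?_
  rw [← Real.exp_sum, sum_add_distrib, ← mul_sum]
  refine le_trans (Real.exp_le_exp.2 (?_ : _ ≤ Real.log (Real.log L) +
    (A + 5 / 2 * D + η * (L : ℝ) ^ η * (Real.log L + C)))) (by rw [Real.exp_add, Real.exp_log hl])
  have h1 : ∑ p ∈ primesUpTo L, (p : ℝ) ^ (-(1 - η)) ≤
      recipSum L + η * (L : ℝ) ^ η * ∑ p ∈ primesUpTo L, Real.log p / p := by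
    rw [recipSum, mul_sum, ← sum_add_distrib]
    refine sum_le_sum fun p hp => ?_
    obtain ⟨hpp, hpL⟩ := mem_primesUpTo.1 hp
    have hp1 : (1 : ℝ) ≤ p := Nat.one_le_cast.2 hpp.one_le
    rw [neg_sub, Real.rpow_sub (by linarith), Real.rpow_one, div_le_iff₀ (by linarith), add_mul,
      inv_mul_cancel₀ (by positivity), mul_assoc (η * (L : ℝ) ^ η),
      div_mul_cancel₀ _ (by positivity)]
    refine (rpow_le_one_add hp1).trans (add_le_add le_rfl ?_)
    rw [mul_right_comm]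
    exact mul_le_mul_of_nonneg_right (mul_le_mul_of_nonneg_left
      (Real.rpow_le_rpow (by linarith) (Nat.cast_le.2 hpL) hη0) hη0) (Real.log_natCast_nonneg p)
  have h2 : ∑ p ∈ primesUpTo L, ((p : ℝ) ^ (-(1 - η))) ^ 2 ≤ D := by
    refine le_trans (sum_le_sum fun p hp => ?_) (hD ▸ hsum.sum_le_tsum _ fun n _ =>
      Real.rpow_nonneg (Nat.cast_nonneg n) _)
    have hp1 : (1 : ℝ) ≤ p := Nat.one_le_cast.2 (mem_primesUpTo.1 hp).1.one_le
    rw [← Real.rpow_natCast, ← Real.rpow_mul (by linarith)]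
    refine Real.rpow_le_rpow_of_exponent_le hp1 ?_
    push_cast
    linarith
  have hA' := (abs_le.1 (hA L hL)).2
  have hC' := mul_le_mul_of_nonneg_left (show ∑ p ∈ primesUpTo L, Real.log p / p ≤ Real.log L + C
    by linarith [(abs_le.1 (hC L (by omega))).2])
    (mul_nonneg hη0 (Real.rpow_nonneg (Nat.cast_nonneg L) η))
  linarith

/-- Mertens: `∏ (1 - 1 / p) ≤ exp C / log L`. -/
theorem exists_prod_one_sub_le : ∃ C : ℝ, ∀ L : ℕ, 2 ≤ L →
    ∏ p ∈ primesUpTo L, (1 - 1 / (p : ℝ)) ≤ Real.exp C / Real.log L := by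
  obtain ⟨C, hC⟩ := exists_abs_recipSum_sub_le
  refine ⟨C, fun L hL => ?_⟩
  calc ∏ p ∈ primesUpTo L, (1 - 1 / (p : ℝ))
      ≤ ∏ p ∈ primesUpTo L, Real.exp (-(p : ℝ)⁻¹) := by
        refine prod_le_prod (fun p hp => ?_) fun p _ => ?_
        · rw [sub_nonneg, div_le_one (Nat.cast_pos.2 (mem_primesUpTo.1 hp).1.pos)]
          exact Nat.one_le_cast.2 (mem_primesUpTo.1 hp).1.one_le
        · rw [one_div]
          linarith [Real.add_one_le_exp (-(p : ℝ)⁻¹)]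
    _ = Real.exp (-recipSum L) := by rw [← Real.exp_sum, sum_neg_distrib, recipSum]
    _ ≤ Real.exp C / Real.log L := by
        have hl : 0 < Real.log L := Real.log_pos (Nat.one_lt_cast.2 (by omega))
        conv_rhs => rw [← Real.exp_log hl, ← Real.exp_sub]
        exact Real.exp_le_exp.2 (by linarith [(abs_le.1 (hC L hL)).1])

end FA.RankinGaps
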