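import Fermat.Agent.LargeGaps.Main
import Fermat.Agent.RankinGaps.Smooth
import Mathlib.NumberTheory.Harmonic.Bounds

/-!
# Rankin's covering

One residue class for each prime `p ≤ x` covers `1, …, H` with
`H ≥ c x log x log log log x / (log log x) ^ 2`: the zero class for `L < p ≤ x / 16` leaves the
`L`-smooth numbers and few dilates of primes, greedy classes for `p ≤ L` thin these out, and the
primes in `(x / 16, x]` remove the rest one by one; here `log L ≍ log x log log log x / log log x`.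
-/

set_option autoImplicit false

noncomputable section

namespace FA.RankinGaps

open Finset Filter Nat.Prime
open scoped Topology Nat.Prime
open FA.ErdosKac

/-- `t log t log log log t / (log log t) ^ 2`. -/
def rate (t : ℝ) : ℝ :=
  t * Real.log t * Real.log (Real.log (Real.log t)) / Real.log (Real.log t) ^ 2

/-- What the zero classes for `L < p ≤ x / 16` leave of `[1, h x]`. -/
theorem card_survivors_le (h L x : ℕ) :
    ((Icc 1 (h * x)).filter fun n => ∀ p ≤ x / 16, p.Prime → L < p → ¬ p ∣ n).card ≤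
      (smoothUpTo (h * x) L).card + ∑ m ∈ Icc 1 (16 * h), π (h * x / m) := by
  have hsub : ((Icc 1 (h * x)).filter fun n => ∀ p ≤ x / 16, p.Prime → L < p → ¬ p ∣ n) ⊆
      smoothUpTo (h * x) L ∪ (Icc 1 (16 * h)).biUnion
        fun m => (Nat.primesLE (h * x / m)).image fun q => m * q := by
    intro n hn
    rw [mem_filter, mem_Icc] at hn
    by_cases hs : ∀ p, p.Prime → p ∣ n → p ≤ L
    · exact mem_union_left _ (mem_smoothUpTo.2 ⟨hn.1, hs⟩)
    push Not at hs
    obtain ⟨q, hq, hqn, hqL⟩ := hs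
    have hqz : x / 16 < q := not_le.1 fun hle => hn.2 q hle hq hqL hqn
    obtain ⟨m, rfl⟩ := hqn
    have hm : 0 < m := Nat.pos_of_mul_pos_left hn.1.1
    refine mem_union_right _ (mem_biUnion.2 ⟨m, mem_Icc.2 ⟨hm, ?_⟩,
      mem_image.2 ⟨q, Nat.mem_primesLE.2 ⟨?_, hq⟩, mul_comm m q⟩⟩)
    · exact Nat.le_of_mul_le_mul_left (hn.1.2.trans ((Nat.mul_le_mul_left h
        (show x ≤ 16 * q by omega)).trans_eq (by ring))) hq.pos
    · exact (Nat.le_div_iff_mul_le hm).2 hn.1.2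
  refine (card_le_card hsub).trans ((card_union_le _ _).trans (Nat.add_le_add le_rfl
    (card_biUnion_le.trans (sum_le_sum fun m _ => card_image_le.trans ?_))))
  rw [Nat.primesLE_card_eq_primeCounting]

/-- One class for each prime `p ≤ x` covers `[1, y]` once the survivors are fewer than the primes
in `(x / 16, x]`. -/
theorem exists_residues {y L x : ℕ} (hLx : L ≤ x / 16)
    (hcard : (∏ p ∈ primesUpTo L, (1 - 1 / (p : ℝ))) *
      ((Icc 1 y).filter fun n => ∀ p ≤ x / 16, p.Prime → L < p → ¬ p ∣ n).card ≤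
        ((Ioc (x / 16) x).filter Nat.Prime).card) :
    ∃ r : ℕ → ℕ, ∀ n ∈ Icc 1 y, ∃ p ≤ x, p.Prime ∧ n ≡ r p [MOD p] := by
  obtain ⟨U, hU⟩ : ∃ U, U = (Icc 1 y).filter fun n =>
      ∀ p ≤ x / 16, p.Prime → L < p → ¬ p ∣ n := ⟨_, rfl⟩
  obtain ⟨r₁, hr₁⟩ := FA.LargeGaps.exists_greedy U (primesUpTo L) fun p hp =>
    (mem_primesUpTo.1 hp).1
  obtain ⟨S, hS⟩ : ∃ S, S = U.filter fun n => ∀ p ∈ primesUpTo L, ¬ n ≡ r₁ p [MOD p] := ⟨_, rfl⟩
  have hST : S.card ≤ ((Ioc (x / 16) x).filter Nat.Prime).card := by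
    rw [← Nat.cast_le (α := ℝ)]
    exact (hS ▸ hr₁).trans (hU ▸ hcard)
  obtain ⟨e⟩ : Nonempty ((↥S : Type) ↪ ↥((Ioc (x / 16) x).filter Nat.Prime)) :=
    Function.Embedding.nonempty_of_card_le (by simpa using hST)
  classical
  refine ⟨fun p => if p ≤ L then r₁ p else
    if hp : ∃ n : ↥S, ((e n : ℕ)) = p then (hp.choose : ℕ) else 0, fun n hn => ?_⟩
  by_cases hnU : n ∈ U
  · by_cases hnS : n ∈ S
    · have hmem := mem_filter.1 (e ⟨n, hnS⟩).2
      rw [mem_Ioc] at hmem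
      refine ⟨(e ⟨n, hnS⟩ : ℕ), hmem.1.2, hmem.2, ?_⟩
      have hex : ∃ m : ↥S, ((e m : ℕ)) = (e ⟨n, hnS⟩ : ℕ) := ⟨_, rfl⟩
      dsimp only
      rw [if_neg (by omega), dif_pos hex, e.injective (Subtype.ext hex.choose_spec)]
    · rw [hS, mem_filter, not_and] at hnS
      have := hnS hnU
      push Not at this
      obtain ⟨p, hp, hnp⟩ := this
      obtain ⟨hpp, hpL⟩ := mem_primesUpTo.1 hp
      refine ⟨p, by omega, hpp, ?_⟩
      dsimp only
      rwa [if_pos hpL]
  · rw [hU, mem_filter, not_and] at hnU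
    have := hnU hn
    push Not at this
    obtain ⟨p, hpz, hp, hLp, hpn⟩ := this
    refine ⟨p, by omega, hp, ?_⟩
    dsimp only
    rw [if_neg (by omega), dif_neg, Nat.modEq_zero_iff_dvd]
    · exact hpn
    · rintro ⟨m, hm⟩
      have := mem_Ioc.1 (mem_filter.1 (e m).2).1
      omega

/-- The facts about `log x`, `log log x` and `log log log x` for large `x`. -/
theorem eventually_logs (B C c₀ : ℝ) (hc₀ : 0 < c₀) : ∀ᶠ x : ℕ in atTop,
    32 ≤ Real.log (Real.log x) ∧ 1 ≤ Real.log (Real.log (Real.log x)) ∧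
    4 * Real.log (Real.log x) ≤ Real.log x / 4 ∧
    2 ≤ c₀ * (Real.log x * Real.log (Real.log (Real.log x)) / Real.log (Real.log x) ^ 2) ∧
    B + Real.log (Real.log x) ^ (4 / 5 : ℝ) * (Real.log (Real.log (Real.log x)) + C) ≤
      Real.log (Real.log x) := by
  have hl : Tendsto (fun x : ℕ => Real.log (Real.log x)) atTop atTop :=
    Real.tendsto_log_atTop.comp (Real.tendsto_log_atTop.comp tendsto_natCast_atTop_atTop)
  have h1 : ∀ᶠ u : ℝ in atTop, 32 ≤ u ∧ 1 ≤ Real.log u ∧ 16 * u ≤ Real.exp u ∧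
      2 ≤ c₀ * (Real.exp u / u ^ 2) ∧ B + u ^ (4 / 5 : ℝ) * (Real.log u + C) ≤ u := by
    filter_upwards [eventually_ge_atTop 32, Real.tendsto_log_atTop.eventually_ge_atTop 1,
      (Real.tendsto_exp_div_pow_atTop 2).eventually_ge_atTop (2 / c₀),
      (tendsto_rpow_atTop (show (0 : ℝ) < 1 / 10 by norm_num)).eventually_ge_atTop
        (10 + |C| + |B|)] with u hu hlu hexp hpow
    refine ⟨hu, hlu, by nlinarith [Real.quadratic_le_exp_of_nonneg (show (0 : ℝ) ≤ u by linarith)],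
      (div_le_iff₀' hc₀).1 hexp, ?_⟩
    obtain ⟨v, hv⟩ : ∃ v, v = u ^ (1 / 10 : ℝ) := ⟨_, rfl⟩
    have hlog : Real.log u ≤ 10 * v := by
      have := Real.log_le_rpow_div (show (0 : ℝ) ≤ u by linarith)
        (show (0 : ℝ) < 1 / 10 by norm_num)
      rw [hv]
      linarith
    have hv1 : 1 ≤ v := by
      rw [hv]
      exact Real.one_le_rpow (by linarith) (by norm_num)
    have hw : 1 ≤ u ^ (4 / 5 : ℝ) := Real.one_le_rpow (by linarith) (by norm_num)
    have hu' : u = u ^ (4 / 5 : ℝ) * (v * v) := by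
      rw [hv, ← Real.rpow_add (by linarith), ← Real.rpow_add (by linarith)]
      norm_num
    rw [← hv] at hpow
    calc B + u ^ (4 / 5 : ℝ) * (Real.log u + C)
        ≤ u ^ (4 / 5 : ℝ) * (|B| * v) + u ^ (4 / 5 : ℝ) * ((10 + |C|) * v) := by
          refine add_le_add ((le_abs_self B).trans ?_) (mul_le_mul_of_nonneg_left ?_ (by linarith))
          · nlinarith [abs_nonneg B, mul_le_mul hw hv1 zero_le_one (by linarith)]
          · nlinarith [abs_nonneg C, le_abs_self C]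
      _ = u ^ (4 / 5 : ℝ) * ((10 + |C| + |B|) * v) := by ring
      _ ≤ u ^ (4 / 5 : ℝ) * (v * v) := mul_le_mul_of_nonneg_left
          (mul_le_mul_of_nonneg_right hpow (by linarith)) (by linarith)
      _ = u := hu'.symm
  filter_upwards [hl.eventually h1, (Real.tendsto_log_atTop.comp
    tendsto_natCast_atTop_atTop).eventually_gt_atTop 0] with x hx hx0
  obtain ⟨h32, hl3, hexp, hc, hB⟩ := hx
  simp only [Function.comp_apply] at hx0
  rw [Real.exp_log hx0] at hexp hc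
  refine ⟨h32, hl3, by linarith, hc.trans (mul_le_mul_of_nonneg_left ?_ hc₀.le), hB⟩
  exact div_le_div_of_nonneg_right (le_mul_of_one_le_right hx0.le hl3) (sq_nonneg _)

/-- **Rankin's covering.** -/
theorem exists_covering : ∃ c : ℝ, 0 < c ∧ ∀ᶠ x : ℕ in atTop, ∃ H : ℕ, c * rate x ≤ H ∧
    ∃ r : ℕ → ℕ, ∀ n ∈ Icc 1 H, ∃ p ≤ x, p.Prime ∧ n ≡ r p [MOD p] := by
  obtain ⟨B, C, hC0, hsm⟩ := exists_card_smooth_le
  obtain ⟨A, hA⟩ := exists_prod_one_sub_le
  obtain ⟨c₀, hc₀⟩ : ∃ c₀, c₀ = min 1 (1 / (270 * Real.exp A)) := ⟨_, rfl⟩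
  have hc₀0 : 0 < c₀ := hc₀ ▸ lt_min one_pos (by positivity)
  refine ⟨c₀ / 2, by linarith, ?_⟩
  have h16 : Tendsto (fun x : ℕ => (x : ℝ) / 16) atTop atTop :=
    tendsto_natCast_atTop_atTop.atTop_div_const (by norm_num)
  obtain ⟨T, hT⟩ :=
    eventually_atTop.1 (Chebyshev.eventually_primeCounting_le (ε := 1 / 2) (by norm_num))
  filter_upwards [eventually_logs B C c₀ hc₀0, FA.LargeGaps.eventually_card_top_ge,
    h16.eventually_ge_atTop T, eventually_ge_atTop 16] with x hlogs htop hxT hx16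
  obtain ⟨l₁, hl₁⟩ : ∃ l, l = Real.log x := ⟨_, rfl⟩
  obtain ⟨l₂, hl₂⟩ : ∃ l, l = Real.log l₁ := ⟨_, rfl⟩
  obtain ⟨l₃, hl₃⟩ : ∃ l, l = Real.log l₂ := ⟨_, rfl⟩
  rw [← hl₁, ← hl₂, ← hl₃] at hlogs
  rw [← hl₁] at htop
  obtain ⟨h32, h3, h21, hh2, hB⟩ := hlogs
  have hl32 : l₃ ≤ l₂ := hl₃ ▸ Real.log_le_self (by linarith)
  have hx0 : (0 : ℝ) < x := Nat.cast_pos.2 (by omega)
  have hl16 : 2 * Real.log 16 ≤ l₁ := by
    have : Real.log 16 = 4 * Real.log 2 := by
      rw [show (16 : ℝ) = 2 ^ 4 by norm_num, Real.log_pow]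
      norm_num
    linarith [Real.log_two_lt_d9]
  -- the length `h x`
  obtain ⟨q, hq⟩ : ∃ q, q = l₁ * l₃ / l₂ ^ 2 := ⟨_, rfl⟩
  rw [← hq] at hh2
  have hql : q ≤ l₁ := by
    rw [hq, div_le_iff₀ (by positivity)]
    exact mul_le_mul_of_nonneg_left (by nlinarith) (by linarith)
  obtain ⟨h, hh⟩ : ∃ h : ℕ, h = ⌊c₀ * q⌋₊ := ⟨_, rfl⟩
  have hle : (h : ℝ) ≤ c₀ * q := hh ▸ Nat.floor_le (by linarith)
  have hge : c₀ / 2 * q ≤ h := by linarith [hh ▸ Nat.lt_floor_add_one (c₀ * q)]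
  have hh1 : 1 ≤ h := Nat.one_le_cast.1 (show (1 : ℝ) ≤ h by linarith)
  have hhl : (h : ℝ) ≤ l₁ := hle.trans ((mul_le_of_le_one_left (by nlinarith)
    (hc₀ ▸ min_le_left _ _)).trans hql)
  refine ⟨h * x, ?_, ?_⟩
  · rw [rate, ← hl₁, ← hl₂, ← hl₃, Nat.cast_mul,
      show (x : ℝ) * l₁ * l₃ / l₂ ^ 2 = q * x by rw [hq]; ring, ← mul_assoc]
    exact mul_le_mul_of_nonneg_right hge hx0.le
  -- the smoothness parameter
  obtain ⟨w, hw⟩ : ∃ w, w = l₁ * l₃ / (5 * l₂) := ⟨_, rfl⟩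
  have hw5 : w ≤ l₁ / 5 := by
    rw [hw, div_le_div_iff₀ (by positivity) (by norm_num)]
    nlinarith [mul_le_mul_of_nonneg_left hl32 (show (0 : ℝ) ≤ l₁ by linarith)]
  have hw2 : 2 ≤ w := by
    rw [hw, le_div_iff₀ (by positivity)]
    nlinarith
  obtain ⟨L, hL⟩ : ∃ L : ℕ, L = ⌊Real.exp w⌋₊ := ⟨_, rfl⟩
  have hLle : (L : ℝ) ≤ Real.exp w := hL ▸ Nat.floor_le (Real.exp_pos w).le
  have hLge : Real.exp w < L + 1 := hL ▸ Nat.lt_floor_add_one _
  have hL2 : 2 ≤ L := Nat.ofNat_le_cast.1 (show (2 : ℝ) ≤ L by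
    linarith [Real.quadratic_le_exp_of_nonneg (show (0 : ℝ) ≤ w by linarith), sq_nonneg w])
  have hL0 : (0 : ℝ) < L := Nat.cast_pos.2 (by omega)
  have hlogL : Real.log L ≤ w := by
    rw [← Real.log_exp w]
    exact Real.log_le_log hL0 hLle
  have hlogL' : w / 2 ≤ Real.log L := by
    refine le_trans (show w / 2 ≤ w - Real.log 2 by linarith [Real.log_two_lt_d9]) ?_
    rw [sub_le_iff_le_add, ← Real.log_mul hL0.ne' two_ne_zero, Real.le_log_iff_exp_le
      (by positivity)]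
    have : (1 : ℝ) ≤ L := Nat.one_le_cast.2 (by omega)
    linarith
  have hLx : L ≤ x / 16 := by
    rw [Nat.le_div_iff_mul_le (by norm_num), ← Nat.cast_le (α := ℝ), Nat.cast_mul]
    refine (mul_le_mul_of_nonneg_right hLle (by norm_num)).trans ?_
    rw [Nat.cast_ofNat, ← Real.exp_log (show (0 : ℝ) < 16 by norm_num), ← Real.exp_add,
      ← Real.exp_log hx0, Real.exp_le_exp, ← hl₁]
    linarith
  refine exists_residues hLx ?_
  -- smooth numbers
  have hy : (x : ℝ) ≤ ((h * x : ℕ) : ℝ) := Nat.cast_le.2 (Nat.le_mul_of_pos_left x hh1)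
  obtain ⟨η, hη⟩ : ∃ η, η = 4 * l₂ / l₁ := ⟨_, rfl⟩
  have hl₁0 : 0 < l₁ := by linarith
  have hη1 : η ≤ 1 / 4 := by
    rw [hη, div_le_iff₀ hl₁0]
    linarith
  have hη0 : 0 ≤ η := hη ▸ div_nonneg (by linarith) hl₁0.le
  have hηw : η * w = 4 / 5 * l₃ := by
    rw [hη, hw]
    field_simp
  have hsmooth : ((smoothUpTo (h * x) L).card : ℝ) ≤ (h : ℝ) * x * (l₂ / l₁) := by
    refine (hsm (h * x) L η hη0 hη1 hL2).trans ?_
    have hE : B + η * (L : ℝ) ^ η * (Real.log L + C) ≤ l₂ := by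
      refine le_trans (add_le_add le_rfl ?_) hB
      rw [mul_comm η, mul_assoc]
      refine mul_le_mul ?_ ?_ (mul_nonneg hη0 (add_nonneg (Real.log_natCast_nonneg L) hC0))
        (Real.rpow_nonneg (by linarith) _)
      · rw [Real.rpow_def_of_pos hL0, Real.rpow_def_of_pos (show 0 < l₂ by linarith), ← hl₃,
          Real.exp_le_exp]
        nlinarith [mul_le_mul_of_nonneg_right hlogL hη0]
      · rw [mul_add]
        nlinarith [mul_le_mul_of_nonneg_left hlogL hη0,
          mul_le_mul_of_nonneg_right (hη1.trans (by norm_num : (1 : ℝ) / 4 ≤ 1)) hC0]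
    have hLl : Real.log L ≤ Real.exp l₂ := by
      rw [hl₂, Real.exp_log hl₁0]
      linarith
    rw [Real.rpow_sub (by linarith), Real.rpow_one, div_mul_eq_mul_div, Nat.cast_mul,
      mul_div_assoc]
    refine mul_le_mul_of_nonneg_left ?_ (by positivity)
    have hy0 : Real.exp (4 * l₂) ≤ ((h : ℝ) * x) ^ η := by
      rw [Real.rpow_def_of_pos (by positivity), Real.exp_le_exp]
      refine le_trans (le_of_eq ?_) (mul_le_mul_of_nonneg_right
        (Real.log_le_log hx0 (by simpa using hy)) hη0)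
      rw [← hl₁, hη]
      field_simp
    rw [div_le_iff₀ (lt_of_lt_of_le (Real.exp_pos _) hy0)]
    calc Real.log L * Real.exp (B + η * (L : ℝ) ^ η * (Real.log L + C))
        ≤ Real.exp l₂ * Real.exp l₂ := mul_le_mul hLl (Real.exp_le_exp.2 hE)
          (Real.exp_pos _).le (Real.exp_pos _).le
      _ ≤ 1 / l₁ * Real.exp (4 * l₂) := by
          rw [show (4 : ℝ) * l₂ = l₂ + (l₂ + (l₂ + l₂)) by ring]
          simp only [Real.exp_add]
          rw [hl₂, Real.exp_log hl₁0, one_div, inv_mul_cancel_left₀ hl₁0.ne']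
          exact mul_le_mul_of_nonneg_left (le_mul_of_one_le_right hl₁0.le (by linarith)) hl₁0.le
      _ ≤ _ := mul_le_mul (div_le_div_of_nonneg_right (by linarith) hl₁0.le) hy0
          (Real.exp_pos _).le (div_nonneg (by linarith) hl₁0.le)
  -- the dilates of large primes
  have hlarge : ((∑ m ∈ Icc 1 (16 * h), π (h * x / m) : ℕ) : ℝ) ≤
      8 * ((h : ℝ) * x * (l₂ / l₁)) := by
    push_cast
    have hb : ∀ m ∈ Icc 1 (16 * h), (π (h * x / m) : ℝ) ≤ 4 * (h * x) / l₁ * (m : ℝ)⁻¹ := by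
      intro m hm
      rw [mem_Icc] at hm
      have hm0 : (0 : ℝ) < m := Nat.cast_pos.2 hm.1
      have ht : (x : ℝ) / 16 ≤ ((h * x : ℕ) : ℝ) / m := by
        rw [div_le_div_iff₀ (by norm_num) hm0]
        have : x * m ≤ h * x * 16 := (Nat.mul_le_mul_left x hm.2).trans_eq (by ring)
        exact_mod_cast this
      have hpi := hT _ (hxT.trans ht)
      rw [Nat.floor_div_eq_div] at hpi
      refine hpi.trans ?_
      have hlt : l₁ / 2 ≤ Real.log (((h * x : ℕ) : ℝ) / m) := by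
        refine le_trans ?_ (Real.log_le_log (by positivity) ht)
        rw [Real.log_div hx0.ne' (by norm_num), ← hl₁]
        linarith
      have h4 : Real.log 4 + 1 / 2 ≤ 2 := by
        rw [show (4 : ℝ) = 2 ^ 2 by norm_num, Real.log_pow]
        push_cast
        linarith [Real.log_two_lt_d9]
      rw [Nat.cast_mul] at hlt ⊢
      refine (div_le_div₀ (by positivity) (mul_le_mul_of_nonneg_right h4 (by positivity))
        (by linarith) hlt).trans (le_of_eq ?_)
      field_simp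
      ring
    refine (sum_le_sum hb).trans ?_
    rw [← mul_sum]
    have hsum : ∑ m ∈ Icc 1 (16 * h), (m : ℝ)⁻¹ ≤ 2 * l₂ := by
      have e : ∑ m ∈ Icc 1 (16 * h), (m : ℝ)⁻¹ = (harmonic (16 * h) : ℝ) := by
        rw [harmonic_eq_sum_Icc]
        push_cast
        rfl
      rw [e]
      refine (harmonic_le_one_add_log _).trans ?_
      rw [Nat.cast_mul, Nat.cast_ofNat, Real.log_mul (by norm_num) (by positivity)]
      have : Real.log h ≤ l₂ := hl₂ ▸ Real.log_le_log (by positivity) hhl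
      linarith [Real.log_le_sub_one_of_pos (show (0 : ℝ) < 16 by norm_num)]
    refine (mul_le_mul_of_nonneg_left hsum (by positivity)).trans (le_of_eq ?_)
    ring
  -- greedy classes and the top primes
  have hU := (Nat.cast_le (α := ℝ)).2 (card_survivors_le h L x)
  rw [Nat.cast_add] at hU
  have hP : ∏ p ∈ primesUpTo L, (1 - 1 / (p : ℝ)) ≤ 10 * Real.exp A * l₂ / (l₁ * l₃) := by
    refine (hA L hL2).trans ((div_le_div_of_nonneg_left (Real.exp_pos _).le (by linarith)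
      hlogL').trans (le_of_eq ?_))
    rw [hw]
    field_simp
    ring
  refine le_trans (mul_le_mul hP (hU.trans (show _ ≤ 9 * ((h : ℝ) * x * (l₂ / l₁)) by linarith))
    (Nat.cast_nonneg _) (div_nonneg (mul_nonneg (by positivity) (by linarith))
      (mul_nonneg hl₁0.le (by linarith)))) (le_trans ?_ htop)
  have hc : c₀ * (270 * Real.exp A) ≤ 1 :=
    (le_div_iff₀ (by positivity)).1 (hc₀ ▸ min_le_right _ _)
  rw [show 10 * Real.exp A * l₂ / (l₁ * l₃) * (9 * ((h : ℝ) * x * (l₂ / l₁))) =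
      (h : ℝ) * (270 * Real.exp A) / q * (x / (3 * l₁)) by rw [hq]; field_simp; ring]
  refine mul_le_of_le_one_left (by positivity) ?_
  have hq0 : 0 < q := by
    rw [hq]
    exact div_pos (mul_pos hl₁0 (by linarith)) (by positivity)
  rw [div_le_one hq0]
  nlinarith [mul_le_mul_of_nonneg_right hle (show 0 ≤ 270 * Real.exp A by positivity),
    mul_le_mul_of_nonneg_right hc hq0.le]

end FA.RankinGaps
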